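/-
PROJECT R (row 37 by S43), gate G2* / LG1Hyp, the valuation side (V), brick (V-sat) (helper11):
THE REPRESENTATION PROPERTY `HasRep` OVER AN ARBITRARY VALUATION RING, AT EVERY PRIME.

Generalises main's `S48/B/Igusa/Saturate.hasRep` (helper25; discrete valuation ring with uniformiser
`ℓ`) to ANY valuation subring `A` of ANY field `L` over `ℚ` with a ring map `π : A →+* k` into a field
of characteristic `ℓ` : no discreteness, no hypothesis on the kernel of `π`, no hypothesis on units.

Method (lattices instead of descent on the valuation): for a finite set `s` of `ℤ`-integral series,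
the `ℓ`-saturation `Λ` of `span_ℤ s` inside `ℤ((q))` is a finitely generated free `ℤ`-module
(finitely many coefficients separate the `ℚ`-span, so `Λ ↪ ℤ^F`); a `ℤ`-basis of `Λ` stays linearly
independent modulo `ℓ` (saturation), hence over `k` (main's `S24/LinDisjoint`).  Writing
`x = ∑ a_i e_i` (`a_i ∈ A`) and dividing by a coefficient `a_{i₀}` which divides all the others gives
`x = a_{i₀} y` with `y` of nonzero reduction.

* `exists_finset_coords` : a finite-dimensional space of functions is separated by finitely many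
  coordinates;
* `exists_smul_red_ne_zero` : every nonzero `x` in the `A`-span of the integral elements is `c • y`,
  `c ≠ 0`, `y` in the span, `y` of nonzero reduction;
* **`hasRepV`** : `Red.GaussG.HasRep A π F₀ Fk` as soon as `F₀` consists of quotients of `ℤ`-integral
  elements and `Fk` contains the reductions of the `ℤ`-integral elements of `F₀`;
* **`hasRepBar`** : `HasRep A (residue A) (F1 M) (F1C M (ResidueField A))` for EVERY valuation subring
  `A` of `ℚ̄` lying over a prime `ℓ`, every level `M` (`ℓ ∣ M` allowed).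
-/
import Mathlib
import Fermat.Agent.S24.LinDisjoint
import Fermat.Agent.S18.ResidueBasics
import Fermat.Agent.S48.B.Red.GaussG
import Fermat.Agent.S48.B.Igusa.Saturate
import Fermat.Agent.S48.B.Igusa.Final

set_option autoImplicit false
set_option linter.unusedSectionVars false

noncomputable section

namespace Fermat.Agent.S43.LG1.V.Sat

open HahnSeries ModularCurve
open Fermat.Agent.S48.B.Igusa.Saturate

/-! ### finitely many coordinates separate a finite-dimensional space of functions -/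

section Coords

variable {K ι : Type*} [Field K]

/-- the functions of `V` vanishing on `F` -/
def vanishOn (V : Submodule K (ι → K)) (F : Finset ι) : Submodule K (ι → K) where
  carrier := {v | v ∈ V ∧ ∀ i ∈ F, v i = 0}
  add_mem' := by
    rintro a b ⟨ha, ha'⟩ ⟨hb, hb'⟩
    exact ⟨V.add_mem ha hb, fun i hi => by rw [Pi.add_apply, ha' i hi, hb' i hi, add_zero]⟩
  zero_mem' := ⟨V.zero_mem, fun _ _ => rfl⟩
  smul_mem' := by
    rintro c a ⟨ha, ha'⟩
    exact ⟨V.smul_mem c ha, fun i hi => by rw [Pi.smul_apply, ha' i hi, smul_zero]⟩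

theorem vanishOn_le (V : Submodule K (ι → K)) (F : Finset ι) : vanishOn V F ≤ V :=
  fun _ hv => hv.1

/-- a finite-dimensional space of functions is separated by finitely many coordinates -/
theorem exists_finset_coords (V : Submodule K (ι → K)) [FiniteDimensional K V] :
    ∃ F : Finset ι, ∀ v ∈ V, (∀ i ∈ F, v i = 0) → v = 0 := by
  classical
  have key : ∀ (n : ℕ) (F : Finset ι), Module.finrank K (vanishOn V F) = n →
      ∃ F' : Finset ι, ∀ v ∈ V, (∀ i ∈ F', v i = 0) → v = 0 := by
    intro n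
    induction n using Nat.strong_induction_on with
    | _ n ih =>
    intro F hF
    by_cases h : ∀ v ∈ V, (∀ i ∈ F, v i = 0) → v = 0
    · exact ⟨F, h⟩
    · push Not at h
      obtain ⟨v, hvV, hvF, hv0⟩ := h
      have hex : ∃ i, v i ≠ 0 := by
        by_contra hcon
        push Not at hcon
        exact hv0 (funext hcon)
      obtain ⟨i, hi⟩ := hex
      have hfd : FiniteDimensional K (vanishOn V F) :=
        Submodule.finiteDimensional_of_le (vanishOn_le V F)
      have hlt : vanishOn V (insert i F) < vanishOn V F := by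
        refine lt_of_le_of_ne ?_ ?_
        · intro w hw
          exact ⟨hw.1, fun j hj => hw.2 j (Finset.mem_insert_of_mem hj)⟩
        · intro heq
          have hv : v ∈ vanishOn V (insert i F) := by
            rw [heq]
            exact ⟨hvV, hvF⟩
          exact hi (hv.2 i (Finset.mem_insert_self i F))
      have h1 := Submodule.finrank_lt_finrank_of_lt hlt
      rw [hF] at h1
      exact ih _ h1 (insert i F) rfl
  exact key _ ∅ rfl

end Coords

/-! ### the `ℓ`-saturation of a finitely generated lattice of integral series -/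

section Lattice

variable (ℓ : ℕ) [Fact ℓ.Prime]

/-- the coefficients of an integral series, as rational numbers -/
def coeffQ : LaurentSeries ℤ →ₗ[ℤ] (ℤ → ℚ) where
  toFun y := fun n => ((y.coeff n : ℤ) : ℚ)
  map_add' a b := by
    funext n
    simp only [HahnSeries.coeff_add, Pi.add_apply, Int.cast_add]
  map_smul' c a := by
    funext n
    show (((c • a).coeff n : ℤ) : ℚ) = c • ((a.coeff n : ℤ) : ℚ)
    rw [HahnSeries.coeff_smul, smul_eq_mul, Int.cast_mul, zsmul_eq_mul]

theorem coeffQ_apply (y : LaurentSeries ℤ) (n : ℤ) : coeffQ y n = ((y.coeff n : ℤ) : ℚ) := rfl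

theorem coeffQ_injective : Function.Injective coeffQ := by
  intro a b h
  ext n
  have h1 := congrFun h n
  rw [coeffQ_apply, coeffQ_apply] at h1
  exact Int.cast_injective h1

/-- the `ℓ`-saturation of the `ℤ`-span of `s` inside `ℤ((q))` -/
def satSpan (s : Finset (LaurentSeries ℤ)) : Submodule ℤ (LaurentSeries ℤ) where
  carrier := {y | ∃ m : ℕ, ((ℓ : ℤ) ^ m) • y ∈ Submodule.span ℤ (s : Set (LaurentSeries ℤ))}
  add_mem' := by
    rintro a b ⟨m, hm⟩ ⟨n, hn⟩
    refine ⟨m + n, ?_⟩
    have h1 : ((ℓ : ℤ) ^ (m + n)) • (a + b) =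
        ((ℓ : ℤ) ^ n) • (((ℓ : ℤ) ^ m) • a) + ((ℓ : ℤ) ^ m) • (((ℓ : ℤ) ^ n) • b) := by
      rw [smul_smul, smul_smul, smul_add, _root_.pow_add, mul_comm]
    rw [h1]
    exact Submodule.add_mem _ (Submodule.smul_mem _ _ hm) (Submodule.smul_mem _ _ hn)
  zero_mem' := ⟨0, by rw [smul_zero]; exact Submodule.zero_mem _⟩
  smul_mem' := by
    rintro c a ⟨m, hm⟩
    refine ⟨m, ?_⟩
    rw [smul_comm]
    exact Submodule.smul_mem _ _ hm

variable {ℓ} {s : Finset (LaurentSeries ℤ)}

theorem mem_satSpan {y : LaurentSeries ℤ} :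
    y ∈ satSpan ℓ s ↔ ∃ m : ℕ, ((ℓ : ℤ) ^ m) • y ∈ Submodule.span ℤ (s : Set (LaurentSeries ℤ)) :=
  Iff.rfl

theorem subset_satSpan {P : LaurentSeries ℤ} (hP : P ∈ s) : P ∈ satSpan ℓ s :=
  ⟨0, by rw [pow_zero, one_smul]; exact Submodule.subset_span hP⟩

theorem satSpan_sat {y : LaurentSeries ℤ} (h : (ℓ : ℤ) • y ∈ satSpan ℓ s) : y ∈ satSpan ℓ s := by
  obtain ⟨m, hm⟩ := h
  refine ⟨m + 1, ?_⟩
  rwa [pow_succ, mul_smul]

/-- the saturation stays inside every `ℓ`-saturated subring containing `s` -/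
theorem satSpan_le (I : Subring (LaurentSeries ℤ)) (hs : ∀ P ∈ s, P ∈ I)
    (hsat : ∀ y : LaurentSeries ℤ, (ℓ : ℤ) • y ∈ I → y ∈ I) {y : LaurentSeries ℤ}
    (hy : y ∈ satSpan ℓ s) : y ∈ I := by
  obtain ⟨m, hm⟩ := hy
  have h1 : ((ℓ : ℤ) ^ m) • y ∈ I := by
    refine Submodule.span_induction (p := fun z _ => z ∈ I) ?_ ?_ ?_ ?_ hm
    · intro z hz
      exact hs z hz
    · exact I.zero_mem
    · intro a b _ _ ha hb
      exact I.add_mem ha hb
    · intro c a _ ha
      exact Subring.zsmul_mem _ ha c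
  clear hm
  induction m with
  | zero => rwa [pow_zero, one_smul] at h1
  | succ m ih =>
    apply ih
    apply hsat
    rwa [smul_smul, ← pow_succ']

variable (ℓ s) in
/-- finitely many coefficients separate the saturation -/
theorem exists_coords_satSpan :
    ∃ F : Finset ℤ, ∀ y ∈ satSpan ℓ s, (∀ i ∈ F, y.coeff i = 0) → y = 0 := by
  classical
  set V : Submodule ℚ (ℤ → ℚ) := Submodule.span ℚ (coeffQ '' (s : Set (LaurentSeries ℤ))) with hV
  have hfin : FiniteDimensional ℚ V :=
    FiniteDimensional.span_of_finite ℚ ((Finset.finite_toSet s).image _)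
  obtain ⟨F, hF⟩ := exists_finset_coords V
  refine ⟨F, fun y hy hy0 => ?_⟩
  obtain ⟨m, hm⟩ := hy
  have hℓ : ((ℓ : ℤ) : ℚ) ^ m ≠ 0 :=
    pow_ne_zero _ (by exact_mod_cast (Fact.out : ℓ.Prime).ne_zero)
  -- the image of `ℓ ^ m • y` lies in `V`
  have h1 : coeffQ (((ℓ : ℤ) ^ m) • y) ∈ V := by
    refine Submodule.span_induction (p := fun z _ => coeffQ z ∈ V) ?_ ?_ ?_ ?_ hm
    · intro z hz
      exact Submodule.subset_span ⟨z, hz, rfl⟩
    · rw [map_zero]
      exact V.zero_mem
    · intro a b _ _ ha hb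
      rw [map_add]
      exact V.add_mem ha hb
    · intro c a _ ha
      rw [map_smul, ← Int.cast_smul_eq_zsmul ℚ]
      exact V.smul_mem _ ha
  have h2 : coeffQ y ∈ V := by
    have h3 : coeffQ y = (((ℓ : ℤ) : ℚ) ^ m)⁻¹ • coeffQ (((ℓ : ℤ) ^ m) • y) := by
      rw [map_smul, ← Int.cast_smul_eq_zsmul ℚ, Int.cast_pow, smul_smul, inv_mul_cancel₀ hℓ,
        one_smul]
    rw [h3]
    exact V.smul_mem _ h1
  have h4 : coeffQ y = 0 := by
    refine hF _ h2 fun i hi => ?_
    rw [coeffQ_apply, hy0 i hi, Int.cast_zero]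
  exact coeffQ_injective (by rw [h4, map_zero])

variable (ℓ s) in
/-- the saturation is a finitely generated torsion-free `ℤ`-module -/
theorem finite_free_satSpan :
    Module.Finite ℤ ↥(satSpan ℓ s) ∧ Module.Free ℤ ↥(satSpan ℓ s) := by
  classical
  obtain ⟨F, hF⟩ := exists_coords_satSpan ℓ s
  let ψ : ↥(satSpan ℓ s) →ₗ[ℤ] (F → ℤ) :=
    { toFun := fun y i => (y : LaurentSeries ℤ).coeff i
      map_add' := fun a b => by
        funext i
        simp only [Submodule.coe_add, HahnSeries.coeff_add, Pi.add_apply]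
      map_smul' := fun c a => by
        funext i
        simp only [Submodule.coe_smul, HahnSeries.coeff_smul, RingHom.id_apply, Pi.smul_apply] }
  have hψ : Function.Injective ψ := by
    rw [injective_iff_map_eq_zero]
    intro y hy
    apply Subtype.ext
    refine hF _ y.2 fun i hi => ?_
    exact congrFun hy ⟨i, hi⟩
  have h1 : Module.Finite ℤ ↥(satSpan ℓ s) := Module.Finite.of_injective ψ hψ
  have h2 : Module.IsTorsionFree ℤ ↥(satSpan ℓ s) :=
    Function.Injective.moduleIsTorsionFree ψ hψ (fun r m => map_smul ψ r m)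
  exact ⟨h1, Module.free_of_finite_type_torsion_free'⟩

end Lattice

/-! ### a basis of the saturation stays independent modulo `ℓ` -/

section Indep

variable (ℓ : ℕ) [Fact ℓ.Prime]

/-- a `ℤ`-basis of the saturation stays linearly independent modulo `ℓ` -/
theorem linearIndependent_rd_basis {ι : Type*} [Fintype ι] {s : Finset (LaurentSeries ℤ)}
    (b : Module.Basis ι ℤ ↥(satSpan ℓ s)) :
    LinearIndependent (ZMod ℓ) (fun i => rd ℓ ((b i : ↥(satSpan ℓ s)) : LaurentSeries ℤ)) := by
  classical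
  rw [Fintype.linearIndependent_iff]
  intro g hg i
  set r : ι → ℤ := fun i => ((g i).val : ℤ) with hr
  have hrg : ∀ i, ((r i : ℤ) : ZMod ℓ) = g i := by
    intro i
    rw [hr]
    simp only
    rw [Int.cast_natCast, ZMod.natCast_zmod_val]
  set Q : ↥(satSpan ℓ s) := ∑ i, r i • b i with hQ
  have hQ0 : rd ℓ ((Q : ↥(satSpan ℓ s)) : LaurentSeries ℤ) = 0 := by
    rw [← hg, hQ, Submodule.coe_sum, map_sum]
    refine Finset.sum_congr rfl fun i _ => ?_
    rw [Submodule.coe_smul, map_zsmul, ← hrg i, Int.cast_smul_eq_zsmul]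
  obtain ⟨Q', hQ'⟩ := exists_smul_of_coeffMap_eq_zero ℓ (Q : LaurentSeries ℤ) hQ0
  have hQ'mem : Q' ∈ satSpan ℓ s := satSpan_sat (hQ' ▸ Q.2)
  have h1 : Q = (ℓ : ℤ) • (⟨Q', hQ'mem⟩ : ↥(satSpan ℓ s)) := Subtype.ext hQ'
  have h2 : b.repr Q i = (ℓ : ℤ) * b.repr (⟨Q', hQ'mem⟩ : ↥(satSpan ℓ s)) i := by
    rw [h1, map_smul, Finsupp.smul_apply, smul_eq_mul]
  have h3 : b.repr Q i = r i := by
    rw [hQ, b.repr_sum_self]
  rw [← hrg i, ← h3, h2, Int.cast_mul, Int.cast_natCast, ZMod.natCast_self, zero_mul]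

end Indep

/-! ### extraction of the content over a valuation ring -/

section Extract

variable {L : Type*} [Field L] (A : ValuationSubring L)

/-- in a valuation ring, one member of a finite nonempty family divides all the others -/
theorem exists_dvd_all {ι : Type*} [Fintype ι] [Nonempty ι] (a : ι → A) :
    ∃ i₀, ∀ i, a i₀ ∣ a i := by
  classical
  have key : ∀ S : Finset ι, S.Nonempty → ∃ i₀ ∈ S, ∀ i ∈ S, a i₀ ∣ a i := by
    intro S hS
    induction hS using Finset.Nonempty.cons_induction with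
    | singleton j => exact ⟨j, Finset.mem_singleton_self j, fun i hi => by
        rw [Finset.mem_singleton.mp hi]⟩
    | cons j S hj hS ih =>
      obtain ⟨i₀, hi₀, h⟩ := ih
      rcases ValuationRing.dvd_total (a i₀) (a j) with h1 | h1
      · refine ⟨i₀, Finset.mem_cons.mpr (Or.inr hi₀), fun i hi => ?_⟩
        rcases Finset.mem_cons.mp hi with rfl | hi
        · exact h1
        · exact h i hi
      · refine ⟨j, Finset.mem_cons_self j S, fun i hi => ?_⟩
        rcases Finset.mem_cons.mp hi with rfl | hi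
        · exact dvd_rfl
        · exact dvd_trans h1 (h i hi)
  obtain ⟨i₀, -, h⟩ := key Finset.univ Finset.univ_nonempty
  exact ⟨i₀, fun i => h i (Finset.mem_univ i)⟩

variable (ℓ : ℕ) [Fact ℓ.Prime] {k : Type*} [Field k] [Algebra (ZMod ℓ) k] (π : A →+* k)
variable (I : Subring (LaurentSeries ℤ))

/-- **Extraction of the content**: every nonzero element of the `A`-span of an `ℓ`-saturated ring of
integral series is a nonzero constant times an element of the span with nonzero reduction. -/
theorem exists_smul_red_ne_zero (hsat : ∀ y : LaurentSeries ℤ, (ℓ : ℤ) • y ∈ I → y ∈ I)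
    {x : LaurentSeries A} (hx : x ∈ T (R := A) I) (hx0 : x ≠ 0) :
    ∃ (c : A) (y : LaurentSeries A), c ≠ 0 ∧ y ∈ T (R := A) I ∧ x = c • y ∧
      coeffMap π y ≠ 0 := by
  classical
  obtain ⟨t, ht, c, rfl⟩ := (Submodule.mem_span_image_iff_exists_fun A).mp hx
  obtain ⟨hfin, hfree⟩ := finite_free_satSpan ℓ t
  let b := Module.Free.chooseBasis ℤ ↥(satSpan ℓ t)
  have hbI : ∀ i, ((b i : ↥(satSpan ℓ t)) : LaurentSeries ℤ) ∈ I := fun i =>
    satSpan_le I (fun P hP => ht hP) hsat (b i).2
  -- the coefficients in the basis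
  set a : Module.Free.ChooseBasisIndex ℤ ↥(satSpan ℓ t) → A := fun i =>
    ∑ P : t, c P * (((b.repr ⟨P.1, subset_satSpan P.2⟩ i : ℤ)) : A) with ha
  have hP : ∀ P : t, iR A P.1 =
      ∑ i, (((b.repr ⟨P.1, subset_satSpan P.2⟩ i : ℤ)) : A) •
        iR A ((b i : ↥(satSpan ℓ t)) : LaurentSeries ℤ) := by
    intro P
    have h1 := b.sum_repr ⟨P.1, subset_satSpan P.2⟩
    have h2 := congrArg (fun z : ↥(satSpan ℓ t) => iR A (z : LaurentSeries ℤ)) h1
    simp only at h2
    rw [← h2, Submodule.coe_sum, map_sum]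
    refine Finset.sum_congr rfl fun i _ => ?_
    rw [Submodule.coe_smul, iR_zsmul]
  have hxa : ∑ P : t, c P • iR A P.1 =
      ∑ i, a i • iR A ((b i : ↥(satSpan ℓ t)) : LaurentSeries ℤ) := by
    have h1 : ∑ P : t, c P • iR A P.1 = ∑ P : t, ∑ i,
        (c P * (((b.repr ⟨P.1, subset_satSpan P.2⟩ i : ℤ)) : A)) •
          iR A ((b i : ↥(satSpan ℓ t)) : LaurentSeries ℤ) := by
      refine Finset.sum_congr rfl fun P _ => ?_
      conv_lhs => rw [hP P]
      rw [Finset.smul_sum]
      refine Finset.sum_congr rfl fun i _ => ?_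
      rw [smul_smul]
    rw [h1, Finset.sum_comm]
    refine Finset.sum_congr rfl fun i _ => ?_
    rw [ha]
    simp only
    rw [Finset.sum_smul]
  rw [hxa] at hx0 ⊢
  have hne : Nonempty (Module.Free.ChooseBasisIndex ℤ ↥(satSpan ℓ t)) := by
    by_contra hcon
    rw [not_nonempty_iff] at hcon
    exact hx0 (Finset.sum_of_isEmpty _)
  obtain ⟨i₀, hi₀⟩ := exists_dvd_all A a
  have hai₀ : a i₀ ≠ 0 := by
    intro h0
    apply hx0
    refine Finset.sum_eq_zero fun i _ => ?_
    have := hi₀ i
    rw [h0, zero_dvd_iff] at this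
    rw [this, zero_smul]
  choose d hd using hi₀
  have hd₀ : d i₀ = 1 := by
    have h1 := hd i₀
    have h2 : a i₀ * 1 = a i₀ * d i₀ := by rw [mul_one]; exact h1
    exact (mul_left_cancel₀ hai₀ h2).symm
  refine ⟨a i₀, ∑ i, d i • iR A ((b i : ↥(satSpan ℓ t)) : LaurentSeries ℤ), hai₀,
    Submodule.sum_mem _ fun i _ => Submodule.smul_mem _ _ (iR_mem_T (hbI i)), ?_, ?_⟩
  · rw [Finset.smul_sum]
    refine Finset.sum_congr rfl fun i _ => ?_
    rw [smul_smul, ← hd i]
  · intro h0
    rw [map_sum] at h0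
    have h1 : ∑ i, π (d i) • (Fermat.Agent.S24.LinDisjoint.bc
        (rd ℓ ((b i : ↥(satSpan ℓ t)) : LaurentSeries ℤ)) : LaurentSeries k) = 0 := by
      rw [← h0]
      refine Finset.sum_congr rfl fun i _ => ?_
      rw [coeffMap_smul, coeffMap_pi_iR ℓ π]
    have h2 := Fintype.linearIndependent_iff.mp
      (Fermat.Agent.S24.LinDisjoint.linearIndependent_bc (L := k) (linearIndependent_rd_basis ℓ b))
      (fun i => π (d i)) h1 i₀
    rw [hd₀, map_one] at h2
    exact one_ne_zero h2

end Extract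

/-! ### The representation property -/

section Rep

open Fermat.Agent.S48.B.Red.GaussG

variable {L : Type*} [Field L] [Algebra ℚ L] (A : ValuationSubring L)
variable (ℓ : ℕ) [Fact ℓ.Prime] {k : Type*} [Field k] [Algebra (ZMod ℓ) k] (π : A →+* k)
variable {F₀ : IntermediateField ℚ (LaurentSeries ℚ)} {Fk : IntermediateField k (LaurentSeries k)}

include ℓ in

/-- **The representation property over an arbitrary valuation ring** `A` with a ring map `π` into a
field of characteristic `ℓ` : `F₀` consists of quotients of `ℤ`-integral elements and `Fk` contains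
the reductions of the `ℤ`-integral elements of `F₀`. -/
theorem hasRepV
    (hFk : ∀ y ∈ intZ F₀, coeffMap (Int.castRingHom k) y ∈ Fk)
    (hratio : ∀ z ∈ F₀, ∃ P Q : LaurentSeries ℤ, P ∈ intZ F₀ ∧ Q ∈ intZ F₀ ∧
      coeffMap (Int.castRingHom ℚ) Q ≠ 0 ∧
        z * coeffMap (Int.castRingHom ℚ) Q = coeffMap (Int.castRingHom ℚ) P) :
    HasRep A π F₀ Fk := by
  intro f hf
  obtain ⟨N, D, hN, hD, hD0, h⟩ := isFrac_of_mem (A := A) hratio f.2
  have hf0 : (f : LaurentSeries L) ≠ 0 := fun h0 => hf (Subtype.ext h0)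
  have hN0 : N ≠ 0 := by
    rintro rfl
    rw [map_zero] at h
    exact mul_ne_zero hf0 (subtype_ne_zero hD0) h
  obtain ⟨cN, N', hcN, hN', hNN', hrN⟩ :=
    exists_smul_red_ne_zero A ℓ π (intZ F₀) (intZ_sat ℓ F₀) hN hN0
  obtain ⟨cD, D', hcD, hD', hDD', hrD⟩ :=
    exists_smul_red_ne_zero A ℓ π (intZ F₀) (intZ_sat ℓ F₀) hD hD0
  have hcNL : ((cN : A) : L) ≠ 0 := fun h0 => hcN (Subtype.ext h0)
  have hcDL : ((cD : A) : L) ≠ 0 := fun h0 => hcD (Subtype.ext h0)
  have hsub : ∀ (c : A) (x : LaurentSeries A), coeffMap A.subtype (c • x) =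
      algebraMap L (LaurentSeries L) ((c : A) : L) * coeffMap A.subtype x := by
    intro c x
    rw [coeffMap_smul, algebraMap_mul_eq_smul]
    rfl
  refine ⟨((cN : A) : L) / ((cD : A) : L), ⟨N', mem_intRing_of_mem_T hFk hN'⟩,
    ⟨D', mem_intRing_of_mem_T hFk hD'⟩, div_ne_zero hcNL hcDL, ?_, ?_, ?_⟩
  · intro h0
    apply hrN
    have := congrArg Subtype.val h0
    rwa [coe_red] at this
  · intro h0
    apply hrD
    have := congrArg Subtype.val h0
    rwa [coe_red] at this
  · apply Subtype.ext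
    show (f : LaurentSeries L) * coeffMap A.subtype D' =
      algebraMap L (LaurentSeries L) (((cN : A) : L) / ((cD : A) : L)) * coeffMap A.subtype N'
    rw [hNN', hDD', hsub, hsub] at h
    have hp : algebraMap L (LaurentSeries L) ((cD : A) : L) ≠ 0 := by
      rw [Ne, map_eq_zero]
      exact hcDL
    rw [map_div₀, div_mul_eq_mul_div, eq_div_iff hp, ← h]
    ring

end Rep

/-! ### `X₁(M)` over `ℚ̄`, every prime -/

section Bar

open Fermat.Agent.S48.B.Red.GaussG Fermat.Agent.S48.B.Defs.Model IsLocalRing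

local notation "Kb" => AlgebraicClosure ℚ

variable (M : ℕ) [NeZero M] {ℓ : ℕ} [hℓ : Fact ℓ.Prime] {A : ValuationSubring Kb}

/-- **`HasRep` for `ℚ̄(X₁(M))` at every valuation ring of `ℚ̄` over every prime `ℓ`** (`ℓ ∣ M`
allowed, no degree input, no Igusa). -/
theorem hasRepBar (hA : A.LiesOverPrime ℓ) :
    HasRep A (residue ↥A) (F1 M) (F1C M (ResidueField ↥A)) := by
  have := Fermat.Agent.S18.ResidueBasics.charP_residueField A hA
  let _ : Algebra (ZMod ℓ) (ResidueField ↥A) := ZMod.algebra _ ℓ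
  refine hasRepV A ℓ (residue ↥A) ?_ (Fermat.Agent.S48.B.Igusa.Final.ratio_F1 M)
  intro y hy
  exact coeffMap_mem_F1C M _ ((mem_intZ).mp hy)

end Bar

end Fermat.Agent.S43.LG1.V.Sat
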