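/-
PROJECT R (row 37 by S43), gate G2* / LG1Hyp, the valuation side (V), brick (V-branch) (helper3):
THE RATIONAL GAUSS BRANCH OF `ℚ̄(X₁(M))` AT A PRIME `ℓ` (`ℓ ∣ M` ALLOWED), AND helper4's SEAM
`OfSeams.IsGaussBranch` MINUS ITS CLAUSE 2 (diamond stability = Igusa's irreducibility, brick IG).

* `eq_of_le_of_arch`, `apply_mem_iff_of_le` : two archimedean proper valuation rings over a common
  valuation subring coincide; hence an automorphism preserving ONE valuation subring `U ≤ V` preserves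
  the archimedean proper `V` (how total ramification at one node gives the diamond stability);
* generic in the pair `(F₀, Fk)` with `CoeffStable Fk` (twin of main's `S37/Equivariance/GaussEquiv`
  on `S48/B/Red/GaussG`): for a compatibility datum `Compat A π σ σA sbar` the coefficientwise action
  of `σ` preserves `intRing`, `Ow`, and `redw (σ f) = sbar (redw f)`; for the decomposition group
  `smul_mem_OwV_iff`, for the inertia group `smul_sub_mem_nonunits`;
* `gaussV M hA` : the Gauss ring of the RATIONAL `q`-expansion of `ℚ̄(X₁(M))` at `A ∣ ℓ`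
  (`GaussG.OwV` on helper11's `Sat.hasRepBar`); `comap_gaussV`, `arch_gaussV`, `gaussV_ne_top`,
  `exists_valuation_eq_const`, `smul_sub_mem_nonunits_gaussV`, `smul_mem_gaussV_iff`;
* at level `N q`, `ℓ = q` : `jBig_sub_mem_nonunits` (`j(t^{N q}) ≡ j(t^N)^q`),
  `jSmall_sub_notMem_nonunits` (`j(t^N) ≢ j(t^{N q})^q`);
* **`isGaussBranch_of_stable`** : `OfSeams.IsGaussBranch N q A (gaussV (N q) hA)` from clause 2 alone.
-/
import Mathlib
import Fermat.Agent.S28.PrimeCaseForm
import Fermat.Agent.S34.ArchGauss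
import Fermat.Agent.S37.ES.KummerPoly
import Fermat.Agent.S37.Equivariance.GaussEquiv
import Fermat.Agent.S48.B.Red.CoeffAut1
import Fermat.Agent.S48.B.Red.Gauss1
import Fermat.Agent.S43.LG1.V.Sat
import Fermat.Agent.S43.LG1.OfSeams

set_option autoImplicit false
set_option linter.unusedSectionVars false

noncomputable section

namespace Fermat.Agent.S43.LG1.V.Branch

open HahnSeries IntermediateField AlgebraicCurve ModularCurve IsLocalRing
open Fermat.Agent.S34.WeakApprox (Arch)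

/-! ### Archimedean valuation rings over a common valuation subring -/

section Overring

variable {F : Type*} [Field F]

/-- an archimedean valuation ring contained in a proper valuation ring is equal to it -/
theorem eq_of_le_of_arch_aux {V V' : ValuationSubring F} (hle : V ≤ V') (hA : Arch V)
    (ht' : V' ≠ ⊤) : V = V' := by
  refine le_antisymm hle fun x hx => ?_
  by_contra hxV
  obtain ⟨y, hy⟩ : ∃ y, y ∉ V' := by
    by_contra h
    push Not at h
    exact ht' (eq_top_iff.mpr fun y _ => h y)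
  have hx0 : x ≠ 0 := fun h => hxV (h ▸ V.zero_mem)
  have hxi0 : x⁻¹ ≠ 0 := inv_ne_zero hx0
  have hxn : x⁻¹ ∈ V.nonunits := by
    rw [Fermat.Agent.S34.ArchComap.mem_nonunits_iff_inv_notMem V hxi0, inv_inv]
    exact hxV
  obtain ⟨k, hk⟩ := hA y x⁻¹ hxn hxi0
  apply hy
  have h1 : y = y * x⁻¹ ^ k * x ^ k := by
    rw [mul_assoc, ← mul_pow, inv_mul_cancel₀ hx0, one_pow, mul_one]
  rw [h1]
  exact mul_mem (hle hk) (pow_mem hx k)

/-- **two archimedean proper valuation rings over a common valuation subring coincide** -/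
theorem eq_of_le_of_arch {U V V' : ValuationSubring F} (hV : U ≤ V) (hV' : U ≤ V')
    (hA : Arch V) (hA' : Arch V') (ht : V ≠ ⊤) (ht' : V' ≠ ⊤) : V = V' := by
  rcases le_total (⟨V, hV⟩ : {S // U ≤ S}) ⟨V', hV'⟩ with h | h
  · exact eq_of_le_of_arch_aux h hA ht'
  · exact (eq_of_le_of_arch_aux h hA' ht).symm

/-- **an automorphism preserving one valuation subring `U ≤ V` preserves the archimedean proper
valuation ring `V`** -/
theorem apply_mem_iff_of_le {U V : ValuationSubring F} (hUV : U ≤ V) (hA : Arch V) (ht : V ≠ ⊤)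
    (δ : F ≃+* F) (hδ : ∀ x, δ x ∈ U ↔ x ∈ U) (x : F) : δ x ∈ V ↔ x ∈ V := by
  have hA' : Arch (V.comap (δ : F →+* F)) := by
    intro a c hc hc0
    have hc' : δ c ∈ V.nonunits :=
      (Fermat.Agent.S34.ArchComap.mem_comap_nonunits_iff V (δ : F →+* F) c).mp hc
    obtain ⟨k, hk⟩ := hA (δ a) (δ c) hc' ((map_ne_zero δ).mpr hc0)
    refine ⟨k, ?_⟩
    rw [ValuationSubring.mem_comap]
    show δ (a * c ^ k) ∈ V
    rw [map_mul, map_pow]
    exact hk
  have ht' : V.comap (δ : F →+* F) ≠ ⊤ := by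
    intro h
    apply ht
    rw [eq_top_iff]
    intro y _
    have : δ.symm y ∈ V.comap (δ : F →+* F) := h ▸ ValuationSubring.mem_top _
    rw [ValuationSubring.mem_comap] at this
    have h2 : (δ : F →+* F) (δ.symm y) = y := δ.apply_symm_apply y
    rwa [h2] at this
  have hU' : U ≤ V.comap (δ : F →+* F) := fun y hy => by
    rw [ValuationSubring.mem_comap]
    exact hUV ((hδ y).mpr hy)
  have h := eq_of_le_of_arch hUV hU' hA hA' ht ht'
  constructor
  · intro hx
    rw [h, ValuationSubring.mem_comap]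
    exact hx
  · intro hx
    rw [h, ValuationSubring.mem_comap] at hx
    exact hx

end Overring

/-! ### The coefficientwise Galois action on the Gauss ring, generic in the pair of fields -/

section Generic

open Fermat.Agent.S48.B.Red.GaussG Fermat.Agent.S48.B.Red.CoeffAut1
open Fermat.Agent.S37.Equivariance.GaussEquiv (Compat)

variable {L : Type*} [Field L] [Algebra ℚ L] {A : ValuationSubring L}
variable {k : Type*} [Field k] {π : A →+* k}
variable {F₀ : IntermediateField ℚ (LaurentSeries ℚ)} {Fk : IntermediateField k (LaurentSeries k)}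
variable {σ : L ≃ₐ[ℚ] L} {σA : A ≃+* A} {sbar : k ≃+* k}

theorem compat_mem_intRing (hst : CoeffStable Fk) (h : Compat A π σ σA sbar)
    {y : LaurentSeries A} (hy : y ∈ intRing A π F₀ Fk) :
    coeffMap (σA : A →+* A) y ∈ intRing A π F₀ Fk := by
  rw [mem_intRing] at hy ⊢
  refine ⟨?_, ?_⟩
  · rw [h.coeffMap_subtype]
    exact coeffMap_mem_laurentBaseChange σ hy.1
  · rw [h.coeffMap_res]
    exact hst _ _ hy.2

/-- `σ` on the integral elements -/
def mapI (hst : CoeffStable Fk) (h : Compat A π σ σA sbar) :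
    ↥(intRing A π F₀ Fk) →+* ↥(intRing A π F₀ Fk) where
  toFun y := ⟨coeffMap (σA : A →+* A) y.1, compat_mem_intRing hst h y.2⟩
  map_one' := Subtype.ext (map_one _)
  map_mul' _ _ := Subtype.ext (map_mul _ _ _)
  map_zero' := Subtype.ext (map_zero _)
  map_add' _ _ := Subtype.ext (map_add _ _ _)

theorem toFL_mapI (hst : CoeffStable Fk) (h : Compat A π σ σA sbar) (y : ↥(intRing A π F₀ Fk)) :
    toFL A π F₀ Fk (mapI hst h y) = arithmeticRingAut F₀ σ (toFL A π F₀ Fk y) :=
  Subtype.ext (h.coeffMap_subtype y.1)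

theorem red_mapI (hst : CoeffStable Fk) (h : Compat A π σ σA sbar) (y : ↥(intRing A π F₀ Fk)) :
    red A π F₀ Fk (mapI hst h y) = coeffRingAut hst sbar (red A π F₀ Fk y) :=
  Subtype.ext (h.coeffMap_res y.1)

theorem inOw_of_compat (hst : CoeffStable Fk) (h : Compat A π σ σA sbar)
    {f : ↥(laurentBaseChange L F₀)} {a b : ↥(intRing A π F₀ Fk)}
    (hb : red A π F₀ Fk b ≠ 0) (hab : f * toFL A π F₀ Fk b = toFL A π F₀ Fk a) :
    red A π F₀ Fk (mapI hst h b) ≠ 0 ∧
      arithmeticRingAut F₀ σ f * toFL A π F₀ Fk (mapI hst h b) =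
        toFL A π F₀ Fk (mapI hst h a) := by
  refine ⟨?_, ?_⟩
  · rw [red_mapI]
    exact (map_ne_zero_iff _ (coeffRingAut hst sbar).injective).mpr hb
  · rw [toFL_mapI, toFL_mapI, ← map_mul, hab]

theorem mem_Ow_of_compat (hst : CoeffStable Fk) (h : Compat A π σ σA sbar)
    {f : ↥(laurentBaseChange L F₀)} (hf : f ∈ Ow A π F₀ Fk) :
    arithmeticRingAut F₀ σ f ∈ Ow A π F₀ Fk := by
  obtain ⟨a, b, hb, hab⟩ := hf
  exact ⟨mapI hst h a, mapI hst h b, (inOw_of_compat hst h hb hab).1,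
    (inOw_of_compat hst h hb hab).2⟩

theorem arithmeticRingAut_symm_apply (f : ↥(laurentBaseChange L F₀)) :
    arithmeticRingAut F₀ σ.symm (arithmeticRingAut F₀ σ f) = f := by
  apply Subtype.ext
  show coeffMap (σ.symm : L →+* L) (coeffMap (σ : L →+* L) (f : LaurentSeries L))
    = (f : LaurentSeries L)
  rw [coeffMap_coeffMap,
    coeffMap_congr (g := RingHom.id L) (RingHom.ext fun a => σ.symm_apply_apply a)
      (f : LaurentSeries L),
    coeffMap_id]

theorem mem_Ow_iff_of_compat (hst : CoeffStable Fk) (h : Compat A π σ σA sbar)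
    {f : ↥(laurentBaseChange L F₀)} :
    arithmeticRingAut F₀ σ f ∈ Ow A π F₀ Fk ↔ f ∈ Ow A π F₀ Fk := by
  refine ⟨fun hf => ?_, mem_Ow_of_compat hst h⟩
  have h2 := mem_Ow_of_compat hst h.symm hf
  rwa [arithmeticRingAut_symm_apply] at h2

/-- **`redw (σ f) = σ̄ (redw f)`** -/
theorem redw_of_compat (hst : CoeffStable Fk) (h : Compat A π σ σA sbar) (f : ↥(Ow A π F₀ Fk)) :
    redw A π F₀ Fk ⟨arithmeticRingAut F₀ σ f.1, mem_Ow_of_compat hst h f.2⟩ =
      coeffRingAut hst sbar (redw A π F₀ Fk f) := by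
  obtain ⟨a, b, hb, hab⟩ := f.2
  have h1 := inOw_of_compat hst h hb hab
  rw [redw_eq f hb hab,
    redw_eq (⟨arithmeticRingAut F₀ σ f.1, mem_Ow_of_compat hst h f.2⟩ : ↥(Ow A π F₀ Fk))
      h1.1 h1.2, red_mapI, red_mapI, map_div₀]

/-- membership in the maximal ideal of `OwV` through the reduction -/
theorem mem_nonunits_OwV_iff (hrep : HasRep A π F₀ Fk) {x : ↥(laurentBaseChange L F₀)}
    (hx : x ∈ OwV A π F₀ Fk hrep) :
    x ∈ (OwV A π F₀ Fk hrep).nonunits ↔ redV A π F₀ Fk hrep ⟨x, hx⟩ = 0 := by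
  rw [redV_eq_zero_iff, ValuationSubring.mem_nonunits_iff_exists_mem_maximalIdeal]
  constructor
  · rintro ⟨hx', hm⟩
    exact (IsLocalRing.mem_maximalIdeal _).mp hm
  · intro hu
    exact ⟨hx, (IsLocalRing.mem_maximalIdeal _).mpr hu⟩

end Generic

section Residue

open Fermat.Agent.S48.B.Red.GaussG Fermat.Agent.S48.B.Red.CoeffAut1

variable {L : Type*} [Field L] [Algebra ℚ L] {A : ValuationSubring L}
variable {F₀ : IntermediateField ℚ (LaurentSeries ℚ)}
variable {Fk : IntermediateField (ResidueField ↥A) (LaurentSeries (ResidueField ↥A))}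

/-- the decomposition group preserves the Gauss ring -/
theorem smul_mem_OwV_iff (hst : CoeffStable Fk) (hrep : HasRep A (residue ↥A) F₀ Fk)
    (g : A.decompositionSubgroup ℚ) (x : ↥(laurentBaseChange L F₀)) :
    arithmeticGalois F₀ (g : L ≃ₐ[ℚ] L) • x ∈ OwV A (residue ↥A) F₀ Fk hrep ↔
      x ∈ OwV A (residue ↥A) F₀ Fk hrep :=
  mem_Ow_iff_of_compat hst (Fermat.Agent.S37.Equivariance.GaussEquiv.compat A g)

/-- **the inertia group acts trivially on the residue field of the Gauss ring** -/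
theorem smul_sub_mem_nonunits (hst : CoeffStable Fk) (hrep : HasRep A (residue ↥A) F₀ Fk)
    {σ : L ≃ₐ[ℚ] L} (hσ : σ ∈ A.inertiaSubgroupIn ℚ)
    {x : ↥(laurentBaseChange L F₀)} (hx : x ∈ OwV A (residue ↥A) F₀ Fk hrep) :
    arithmeticGalois F₀ σ • x - x ∈ (OwV A (residue ↥A) F₀ Fk hrep).nonunits := by
  obtain ⟨g, rfl, hg⟩ :=
    Fermat.Agent.S37.Equivariance.GaussEquiv.exists_of_mem_inertiaSubgroupIn A hσ
  have hc := Fermat.Agent.S37.Equivariance.GaussEquiv.compat A g
  have hx' : arithmeticGalois F₀ (g : L ≃ₐ[ℚ] L) • x ∈ OwV A (residue ↥A) F₀ Fk hrep :=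
    (smul_mem_OwV_iff hst hrep g x).mpr hx
  have hmem : arithmeticGalois F₀ (g : L ≃ₐ[ℚ] L) • x - x ∈ OwV A (residue ↥A) F₀ Fk hrep :=
    sub_mem hx' hx
  rw [mem_nonunits_OwV_iff hrep hmem]
  have h1 : (⟨arithmeticGalois F₀ (g : L ≃ₐ[ℚ] L) • x - x, hmem⟩ :
      ↥(OwV A (residue ↥A) F₀ Fk hrep)) = ⟨_, hx'⟩ - ⟨x, hx⟩ := rfl
  have h2 : redV A (residue ↥A) F₀ Fk hrep ⟨_, hx'⟩ =
      coeffRingAut hst (Fermat.Agent.S37.Equivariance.GaussEquiv.resAut A g)
        (redV A (residue ↥A) F₀ Fk hrep ⟨x, hx⟩) :=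
    redw_of_compat hst hc ⟨x, hx⟩
  rw [h1, map_sub, h2, hg]
  have h3 : coeffRingAut hst (1 : RingAut (ResidueField ↥A))
      (redV A (residue ↥A) F₀ Fk hrep ⟨x, hx⟩) = redV A (residue ↥A) F₀ Fk hrep ⟨x, hx⟩ := by
    apply Subtype.ext
    rw [coe_coeffRingAut_apply]
    exact coeffMap_id _
  rw [h3, sub_self]

end Residue

/-! ### The rational Gauss branch of `ℚ̄(X₁(M))` at a prime `ℓ` (`ℓ ∣ M` allowed) -/

section Bar

open Fermat.Agent.S48.B.Red.GaussG Fermat.Agent.S48.B.Red.CoeffAut1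
open Fermat.Agent.S48.B.Red.Gauss1 Fermat.Agent.S48.B.Defs.Model

local notation "Kb" => AlgebraicClosure ℚ

variable (M : ℕ) [NeZero M] {ℓ : ℕ} [hℓ : Fact ℓ.Prime] {A : ValuationSubring Kb}

/-- **the Gauss ring of the rational `q`-expansion of `ℚ̄(X₁(M))` at `A ∣ ℓ`** -/
def gaussV (hA : A.LiesOverPrime ℓ) : ValuationSubring ↥(F1Bar M) :=
  OwV A (residue ↥A) (F1 M) (F1C M (ResidueField ↥A)) (Sat.hasRepBar M hA)

/-- its reduction onto `F1C M κ(A)` -/
def redGaussV (hA : A.LiesOverPrime ℓ) : ↥(gaussV M hA) →+* ↥(F1C M (ResidueField ↥A)) :=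
  redV A (residue ↥A) (F1 M) (F1C M (ResidueField ↥A)) (Sat.hasRepBar M hA)

theorem residue_eq_zero_of_not_isUnit (a : A) (ha : ¬ IsUnit a) : residue ↥A a = 0 :=
  (IsLocalRing.residue_eq_zero_iff a).mpr ((IsLocalRing.mem_maximalIdeal a).mpr ha)

theorem mem_nonunits_gaussV_iff (hA : A.LiesOverPrime ℓ) {x : ↥(F1Bar M)} (hx : x ∈ gaussV M hA) :
    x ∈ (gaussV M hA).nonunits ↔ redGaussV M hA ⟨x, hx⟩ = 0 :=
  mem_nonunits_OwV_iff (Sat.hasRepBar M hA) hx

/-- `V ∩ ℚ̄ = A` -/
theorem comap_gaussV (hA : A.LiesOverPrime ℓ) :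
    (gaussV M hA).comap (algebraMap Kb ↥(F1Bar M)) = A := by
  ext c
  rw [ValuationSubring.mem_comap]
  constructor
  · intro h
    exact mem_of_algebraMap_mem_Ow (fun a ha => residue_eq_zero_of_not_isUnit a ha) c h
  · intro hc
    exact algebraMap_mem_OwV (Sat.hasRepBar M hA) ⟨c, hc⟩

/-- **(V4)** the value group of `V` is attained on the constants -/
theorem exists_valuation_eq_const (hA : A.LiesOverPrime ℓ) {f : ↥(F1Bar M)} (hf : f ≠ 0) :
    ∃ c : Kb, (gaussV M hA).valuation f =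
      (gaussV M hA).valuation (algebraMap Kb ↥(F1Bar M) c) := by
  obtain ⟨c, -, u, hu⟩ := exists_const_mul_unit (Sat.hasRepBar M hA) f hf
  refine ⟨c, ?_⟩
  rw [hu, map_mul, (gaussV M hA).valuation_unit u, mul_one]

/-- **(V3)** `V` is archimedean -/
theorem arch_gaussV (hA : A.LiesOverPrime ℓ) : Arch (gaussV M hA) := by
  refine Fermat.Agent.S34.ArchComap.arch_of_valuation_eq (F := Kb) (gaussV M hA) ?_
    (fun x hx => exists_valuation_eq_const M hA hx)
  rw [comap_gaussV]
  exact Fermat.Agent.S34.ArchGauss.arch_of_liesOverPrime_Kb hℓ.out A hA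

/-- **(V3)** `V` is proper -/
theorem gaussV_ne_top (hA : A.LiesOverPrime ℓ) : gaussV M hA ≠ ⊤ := by
  intro h
  apply Fermat.Agent.S34.ArchGauss.ne_top_of_liesOverPrime hℓ.out A hA
  rw [← comap_gaussV M hA, h]
  ext c
  simp [ValuationSubring.mem_comap]

/-- **(V1)** the inertia group of `A` acts trivially on the residue field of `V` -/
theorem smul_sub_mem_nonunits_gaussV (hA : A.LiesOverPrime ℓ) {s : Kb ≃ₐ[ℚ] Kb}
    (hs : s ∈ A.inertiaSubgroupIn ℚ) {x : ↥(F1Bar M)} (hx : x ∈ gaussV M hA) :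
    arithmeticGalois (F1 M) s • x - x ∈ (gaussV M hA).nonunits :=
  smul_sub_mem_nonunits (coeffStable_F1C M (ResidueField ↥A)) (Sat.hasRepBar M hA) hs hx

/-- the decomposition group of `A` preserves `V` -/
theorem smul_mem_gaussV_iff (hA : A.LiesOverPrime ℓ) (g : A.decompositionSubgroup ℚ)
    (x : ↥(F1Bar M)) :
    arithmeticGalois (F1 M) (g : Kb ≃ₐ[ℚ] Kb) • x ∈ gaussV M hA ↔ x ∈ gaussV M hA :=
  smul_mem_OwV_iff (coeffStable_F1C M (ResidueField ↥A)) (Sat.hasRepBar M hA) g x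

/-! ### the functions `j(t^d)`, `d ∣ M` -/

/-- `j(t^d)` over `ℤ` -/
def jZ (d : ℕ) [NeZero d] : LaurentSeries ℤ := qExpand ℤ d (jqModC ℤ)

theorem coeffMap_jZ {R : Type*} [CommRing R] (d : ℕ) [NeZero d] :
    coeffMap (Int.castRingHom R) (jZ d) = qExpand R d (jqModC R) := by
  rw [jZ, Fermat.Agent.S28.PrimeCaseForm.coeffMap_qExpand, coeffMap_jqModC]

theorem jZ_mem {d : ℕ} [NeZero d] (hd : d ∣ M) :
    coeffMap (Int.castRingHom ℚ) (jZ d) ∈ F1 M := by
  rw [coeffMap_jZ, jqModC_rat]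
  exact jqd_mem_F1 M hd

/-- `j(t^d)` as an integral element -/
def jI (A : ValuationSubring Kb) (d : ℕ) [NeZero d] (hd : d ∣ M) :
    ↥(intRing A (residue ↥A) (F1 M) (F1C M (ResidueField ↥A))) :=
  intLift A (residue ↥A) M (jZ d) (jZ_mem M hd)

theorem toFL_jI (A : ValuationSubring Kb) (d : ℕ) [NeZero d] (hd : d ∣ M) :
    toFL A (residue ↥A) (F1 M) (F1C M (ResidueField ↥A)) (jI M A d hd) =
      Fermat.Agent.S48.B.ES.DiamondUnique.jGen M Kb d hd := by
  apply Subtype.ext
  rw [jI, coe_toFL_intLift, coeffMap_jZ, jqModC_rat]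
  rfl

theorem coe_red_jI (A : ValuationSubring Kb) (d : ℕ) [NeZero d] (hd : d ∣ M) :
    ((red A (residue ↥A) (F1 M) (F1C M (ResidueField ↥A)) (jI M A d hd) :
      ↥(F1C M (ResidueField ↥A))) : LaurentSeries (ResidueField ↥A)) =
      qExpand (ResidueField ↥A) d (jqModC (ResidueField ↥A)) := by
  rw [jI, coe_red_intLift, coeffMap_jZ]

/-- in characteristic `q` : `j(t^d)^q = j(t^{q d})` -/
theorem qExpand_jqModC_pow (k : Type*) [Field k] (q : ℕ) [hq : Fact q.Prime] [NeZero q] [CharP k q]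
    (d : ℕ) [NeZero d] :
    qExpand k d (jqModC k) ^ q = qExpand k (q * d) (jqModC k) := by
  have h1 : qExpand k d (jqModC k) = coeffMap (Int.castRingHom k) (jZ d) := (coeffMap_jZ d).symm
  rw [h1, Fermat.Agent.S37.ES.KummerPoly.pow_char_eq_qExpand q, coeffMap_coeffMap,
    RingHom.ext_int ((frobenius k q).comp (Int.castRingHom k)) (Int.castRingHom k), ← h1,
    qExpand_qExpand]

end Bar

/-! ### Level `N q` at the prime `q` : the seam `OfSeams.IsGaussBranch` minus clause 2 -/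

section Level

open Fermat.Agent.S48.B.Red.GaussG Fermat.Agent.S48.B.Red.CoeffAut1
open Fermat.Agent.S48.B.Red.Gauss1 Fermat.Agent.S48.B.Defs.Model
open Fermat.Agent.S43.LG1.OfSeams (jBig jSmall IsGaussBranch)

local notation "Kb" => AlgebraicClosure ℚ

attribute [local instance] Fermat.Agent.S43.LG1.Fricke.Seam.instNeZeroMul

variable (N q : ℕ) [NeZero N] [NeZero q] [hq : Fact q.Prime] {A : ValuationSubring Kb}

/-- `j(t^{N q}) - j(t^N)^q` as an integral element -/
def bigI (A : ValuationSubring Kb) :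
    ↥(intRing A (residue ↥A) (F1 (N * q)) (F1C (N * q) (ResidueField ↥A))) :=
  jI (N * q) A (N * q) dvd_rfl - jI (N * q) A N (Dvd.intro q rfl) ^ q

/-- `j(t^N) - j(t^{N q})^q` as an integral element -/
def smallI (A : ValuationSubring Kb) :
    ↥(intRing A (residue ↥A) (F1 (N * q)) (F1C (N * q) (ResidueField ↥A))) :=
  jI (N * q) A N (Dvd.intro q rfl) - jI (N * q) A (N * q) dvd_rfl ^ q

theorem toFL_bigI (A : ValuationSubring Kb) :
    toFL A (residue ↥A) (F1 (N * q)) (F1C (N * q) (ResidueField ↥A)) (bigI N q A) =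
      jBig N q - jSmall N q ^ q := by
  rw [bigI, map_sub, map_pow, toFL_jI, toFL_jI]
  rfl

theorem toFL_smallI (A : ValuationSubring Kb) :
    toFL A (residue ↥A) (F1 (N * q)) (F1C (N * q) (ResidueField ↥A)) (smallI N q A) =
      jSmall N q - jBig N q ^ q := by
  rw [smallI, map_sub, map_pow, toFL_jI, toFL_jI]
  rfl

theorem red_bigI (hA : A.LiesOverPrime q) :
    red A (residue ↥A) (F1 (N * q)) (F1C (N * q) (ResidueField ↥A)) (bigI N q A) = 0 := by
  have := Fermat.Agent.S18.ResidueBasics.charP_residueField A hA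
  apply Subtype.ext
  rw [bigI, map_sub, map_pow]
  show ((red A (residue ↥A) (F1 (N * q)) (F1C (N * q) (ResidueField ↥A))
      (jI (N * q) A (N * q) dvd_rfl) : ↥(F1C (N * q) (ResidueField ↥A))) :
        LaurentSeries (ResidueField ↥A)) -
      ((red A (residue ↥A) (F1 (N * q)) (F1C (N * q) (ResidueField ↥A))
        (jI (N * q) A N (Dvd.intro q rfl)) : ↥(F1C (N * q) (ResidueField ↥A))) :
          LaurentSeries (ResidueField ↥A)) ^ q = 0
  rw [coe_red_jI, coe_red_jI, qExpand_jqModC_pow (ResidueField ↥A) q N,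
    qExpand_congr (mul_comm q N) (jqModC (ResidueField ↥A)), sub_self]

theorem red_smallI_ne_zero (hA : A.LiesOverPrime q) :
    red A (residue ↥A) (F1 (N * q)) (F1C (N * q) (ResidueField ↥A)) (smallI N q A) ≠ 0 := by
  have := Fermat.Agent.S18.ResidueBasics.charP_residueField A hA
  intro h0
  have h1 := congrArg (fun z : ↥(F1C (N * q) (ResidueField ↥A)) =>
    (z : LaurentSeries (ResidueField ↥A))) h0
  simp only [smallI, map_sub, map_pow] at h1
  have h2 : ((red A (residue ↥A) (F1 (N * q)) (F1C (N * q) (ResidueField ↥A))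
      (jI (N * q) A N (Dvd.intro q rfl)) : ↥(F1C (N * q) (ResidueField ↥A))) :
        LaurentSeries (ResidueField ↥A)) -
      ((red A (residue ↥A) (F1 (N * q)) (F1C (N * q) (ResidueField ↥A))
        (jI (N * q) A (N * q) dvd_rfl) : ↥(F1C (N * q) (ResidueField ↥A))) :
          LaurentSeries (ResidueField ↥A)) ^ q = 0 := h1
  rw [coe_red_jI, coe_red_jI, qExpand_jqModC_pow (ResidueField ↥A) q (N * q)] at h2
  have h3 := congrArg (fun z : LaurentSeries (ResidueField ↥A) => z.coeff ((N : ℤ) * (-1))) h2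
  simp only [HahnSeries.coeff_sub, HahnSeries.coeff_zero] at h3
  rw [qExpand_coeff_mul, coeff_jqModC_neg_one, qExpand_coeff_of_not_dvd, sub_zero] at h3
  · exact one_ne_zero h3
  · intro hdvd
    rw [mul_neg_one, dvd_neg, Int.natCast_dvd_natCast] at hdvd
    have hN : 0 < N := Nat.pos_of_ne_zero (NeZero.ne N)
    have h4 := Nat.le_of_dvd hN hdvd
    have hq2 : 2 ≤ q := hq.out.two_le
    have h5 : 2 * (N * 2) ≤ q * (N * q) := Nat.mul_le_mul hq2 (Nat.mul_le_mul_left N hq2)
    omega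

/-- **`j(t^{N q}) ≡ j(t^N)^q` modulo the maximal ideal of the rational branch** -/
theorem jBig_sub_mem_nonunits (hA : A.LiesOverPrime q) :
    jBig N q - jSmall N q ^ q ∈ (gaussV (N * q) hA).nonunits := by
  have hmem : jBig N q - jSmall N q ^ q ∈ gaussV (N * q) hA := by
    rw [← toFL_bigI N q A]
    exact toFL_mem_OwV (Sat.hasRepBar (N * q) hA) _
  rw [mem_nonunits_gaussV_iff (N * q) hA hmem]
  have h1 : (⟨jBig N q - jSmall N q ^ q, hmem⟩ : ↥(gaussV (N * q) hA)) =
      ⟨toFL A (residue ↥A) (F1 (N * q)) (F1C (N * q) (ResidueField ↥A)) (bigI N q A),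
        toFL_mem_OwV (Sat.hasRepBar (N * q) hA) _⟩ := Subtype.ext (toFL_bigI N q A).symm
  rw [h1]
  exact (redV_toFL (Sat.hasRepBar (N * q) hA) (bigI N q A)).trans (red_bigI N q hA)

/-- **`j(t^N) ≢ j(t^{N q})^q` modulo the maximal ideal of the rational branch** -/
theorem jSmall_sub_notMem_nonunits (hA : A.LiesOverPrime q) :
    jSmall N q - jBig N q ^ q ∉ (gaussV (N * q) hA).nonunits := by
  have hmem : jSmall N q - jBig N q ^ q ∈ gaussV (N * q) hA := by
    rw [← toFL_smallI N q A]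
    exact toFL_mem_OwV (Sat.hasRepBar (N * q) hA) _
  rw [mem_nonunits_gaussV_iff (N * q) hA hmem]
  have h1 : (⟨jSmall N q - jBig N q ^ q, hmem⟩ : ↥(gaussV (N * q) hA)) =
      ⟨toFL A (residue ↥A) (F1 (N * q)) (F1C (N * q) (ResidueField ↥A)) (smallI N q A),
        toFL_mem_OwV (Sat.hasRepBar (N * q) hA) _⟩ := Subtype.ext (toFL_smallI N q A).symm
  rw [h1]
  intro h0
  exact red_smallI_ne_zero N q hA
    ((redV_toFL (Sat.hasRepBar (N * q) hA) (smallI N q A)).symm.trans h0)

/-- **helper4's seam (V) from its clause 2 alone**: the rational Gauss branch of `ℚ̄(X₁(N q))` at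
`A ∣ q` satisfies `OfSeams.IsGaussBranch` as soon as the diamond automorphisms preserve it. -/
theorem isGaussBranch_of_stable (hA : A.LiesOverPrime q)
    (h2 : ∀ (d : (ZMod (N * q))ˣ) (x : ↥(F1Bar (N * q))),
      diamondAut (N * q) Kb d x ∈ gaussV (N * q) hA ↔ x ∈ gaussV (N * q) hA) :
    IsGaussBranch N q A (gaussV (N * q) hA) :=
  ⟨fun _ hs _ hx => smul_sub_mem_nonunits_gaussV (N * q) hA hs hx, h2, arch_gaussV (N * q) hA,
    gaussV_ne_top (N * q) hA, fun _ hf => exists_valuation_eq_const (N * q) hA hf,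
    jBig_sub_mem_nonunits N q hA, jSmall_sub_notMem_nonunits N q hA⟩

end Level

end Fermat.Agent.S43.LG1.V.Branch
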